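import Fermat.Agent.Jac.Ops.Mor

/-!
# A morphism of line bundles identifies the modules with base changes
-/

set_option autoImplicit false

universe u

noncomputable section

open TensorProduct

namespace Fermat.Agent.Jac

variable {k : Type u} [Field k]

/-- A semilinear map between invertible modules whose image spans is a base change over the test
algebras. -/
theorem isBaseChange_of_invertible {B : Type u} [CommRing B] [Algebra k B] {R R' : Type u}
    [CommRing R] [Algebra k R] [CommRing R'] [Algebra k R'] [Algebra R R'] [IsScalarTower k R R']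
    {M M' : Type u} [AddCommGroup M] [Module (R ⊗[k] B) M] [Module R M]
    [IsScalarTower R (R ⊗[k] B) M] [Module.Invertible (R ⊗[k] B) M] [AddCommGroup M']
    [Module (R' ⊗[k] B) M'] [Module R' M'] [IsScalarTower R' (R' ⊗[k] B) M']
    [Module.Invertible (R' ⊗[k] B) M'] [Module R M'] [IsScalarTower R R' M']
    (f : M →ₗ[R] M')
    (hf : ∀ (a : R ⊗[k] B) m,
      f (a • m) = Algebra.TensorProduct.map (IsScalarTower.toAlgHom k R R') (AlgHom.id k B) a • f m)
    (hspan : Submodule.span (R' ⊗[k] B) (Set.range f) = ⊤) : IsBaseChange R' f := by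
  let ρ : R ⊗[k] B →ₐ[k] R' ⊗[k] B :=
    Algebra.TensorProduct.map (IsScalarTower.toAlgHom k R R') (AlgHom.id k B)
  let : Algebra (R ⊗[k] B) (R' ⊗[k] B) := ρ.toRingHom.toAlgebra
  have : IsScalarTower R (R ⊗[k] B) (R' ⊗[k] B) := IsScalarTower.of_algebraMap_eq fun r => by
    change algebraMap R R' r ⊗ₜ[k] (1 : B) = _
    simp [Algebra.TensorProduct.algebraMap_apply, ρ, RingHom.algebraMap_toAlgebra]
  have hpush : Algebra.IsPushout R R' (R ⊗[k] B) (R' ⊗[k] B) :=
    Algebra.IsPushout.tensorProduct_tensorProduct k B R R' (RingHom.ext fun b => by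
      simp [ρ, RingHom.algebraMap_toAlgebra])
  let : Module (R ⊗[k] B) M' := Module.compHom M' ρ.toRingHom
  have : IsScalarTower (R ⊗[k] B) (R' ⊗[k] B) M' := IsScalarTower.of_algebraMap_smul fun _ _ => rfl
  let F : M →ₗ[R ⊗[k] B] M' := { f with map_smul' := hf }
  let Φ : (R' ⊗[k] B) ⊗[R ⊗[k] B] M →ₗ[R' ⊗[k] B] M' := F.liftBaseChange _
  have hΦ : Function.Bijective Φ := by
    refine Module.Invertible.bijective_of_surjective (LinearMap.range_eq_top.1 ?_)
    rw [eq_top_iff, ← hspan, Submodule.span_le]
    rintro _ ⟨m, rfl⟩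
    exact ⟨1 ⊗ₜ m, by simp [Φ, F]⟩
  refine IsBaseChange.of_equiv
    ((Algebra.IsPushout.cancelBaseChange R R' (R ⊗[k] B) (R' ⊗[k] B) M).symm ≪≫ₗ
      (LinearEquiv.ofBijective Φ hΦ).restrictScalars R') fun m => ?_
  simp [Φ, F, Algebra.IsPushout.cancelBaseChange_symm_tmul, ← Algebra.TensorProduct.one_def]

variable {D : CurveData k} {R R' : Type u} [CommRing R] [Algebra k R] [CommRing R'] [Algebra k R']

namespace LB.Mor

variable {φ : R →ₐ[k] R'} {L : LB D R} {L' : LB D R'} (g : LB.Mor φ L L')

/-- The lattices of the target are spanned over the base by the images. -/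
theorem span_base (i : Fin 2) :
    (L'.L i).restrictScalars R' = Submodule.span R' (g.f '' (L.L i : Set L.M)) :=
  SetLike.coe_injective <| by
    rw [Submodule.coe_restrictScalars, ← g.span_map i]
    exact g.coe_span_base i _ fun a _ hm => (L.L i).smul_mem a hm

end LB.Mor

section Algebra

variable [Algebra R R'] [IsScalarTower k R R'] {L : LB D R} {L' : LB D R'}
  (g : LB.Mor (IsScalarTower.toAlgHom k R R') L L') [Module R L'.M] [IsScalarTower R R' L'.M]

/-- The map of a morphism over the source base. -/
def LB.Mor.linearMap : L.M →ₗ[R] L'.M where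
  toFun := g.f
  map_add' := map_add g.f
  map_smul' r m := by simp [g.f_smul_base]

@[simp]
theorem LB.Mor.linearMap_apply (m : L.M) : g.linearMap m = g.f m := rfl

/-- The overlap module of a base change is the base change of the overlap module. -/
theorem LB.Mor.isBaseChange : IsBaseChange R' g.linearMap :=
  isBaseChange_of_invertible (B := D.B01) g.linearMap g.map_smul g.span_top

/-- The map of a morphism on a lattice over the source base. -/
def LB.Mor.lattice (i : Fin 2) : L.L i →ₗ[R] (L'.L i).restrictScalars R' where
  toFun m := ⟨g.f m, g.map_mem m.2⟩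
  map_add' m m' := Subtype.ext (map_add g.f _ _)
  map_smul' r m := Subtype.ext (by simp [g.f_smul_base])

@[simp]
theorem LB.Mor.lattice_apply (i : Fin 2) (m : L.L i) : (g.lattice i m : L'.M) = g.f m := rfl

/-- The lattices of a base change are the base changes of the lattices. -/
theorem LB.Mor.isBaseChange_lattice (i : Fin 2) : IsBaseChange R' (g.lattice i) := by
  let : Module R (L'.L i) := inferInstanceAs (Module R ((L'.L i).restrictScalars R'))
  have : IsScalarTower R R' (L'.L i) :=
    inferInstanceAs (IsScalarTower R R' ((L'.L i).restrictScalars R'))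
  let f : L.L i →ₗ[R] L'.L i :=
    { toFun := fun m => ⟨g.f m, g.map_mem m.2⟩
      map_add' := fun m m' => Subtype.ext (map_add g.f _ _)
      map_smul' := fun r m =>
        Subtype.ext ((g.f_smul_base r m).trans (algebraMap_smul R' r (g.f (m : L.M)))) }
  have h : IsBaseChange R' f := by
    refine isBaseChange_of_invertible (B := D.B i) f
      (fun a m => Subtype.ext (g.f_smul_chart a m)) ?_
    apply Submodule.map_injective_of_injective (f := (L'.L i).subtype) (L'.L i).injective_subtype
    rw [Submodule.map_span, Submodule.map_subtype_top]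
    refine (congrArg _ ?_).trans (g.span_map i)
    ext x
    simp [f]
    exact fun m hm e => e ▸ g.map_mem hm
  exact h

end Algebra

end Fermat.Agent.Jac

end
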