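import Fermat.Agent.Jac.Ops.Basic

/-!
# The two lattices of a line bundle

Finiteness of the first cohomology and a finitely generated bound for the global sections.
-/

set_option autoImplicit false

universe u

noncomputable section

open TensorProduct

namespace Fermat.Agent.Jac

variable {k : Type u} [Field k]

namespace CurveData

variable (D : CurveData k)

theorem exists_finset_span_pow_t (i : Fin 2) :
    ∃ s : Finset (D.B i), ∀ b : D.B i,
      b ∈ Submodule.span k (Set.range fun p : ℕ × s => D.t i ^ p.1 * (p.2 : D.B i)) := by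
  classical
  let : Algebra (Polynomial k) (D.B i) := (Polynomial.aeval (R := k) (D.t i)).toRingHom.toAlgebra
  have : Module.Finite (Polynomial k) (D.B i) := D.aeval_t_finite i
  obtain ⟨s, hs⟩ := (Module.Finite.fg_top : (⊤ : Submodule (Polynomial k) (D.B i)).FG)
  refine ⟨s, fun b => ?_⟩
  have hb : b ∈ Submodule.span (Polynomial k) (s : Set (D.B i)) := by simp [hs]
  set V := Submodule.span k (Set.range fun p : ℕ × s => D.t i ^ p.1 * (p.2 : D.B i))
  suffices ∀ l, D.t i ^ l * b ∈ V by simpa using this 0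
  induction hb using Submodule.span_induction with
  | mem x hx => exact fun l => Submodule.subset_span ⟨(l, ⟨x, hx⟩), rfl⟩
  | zero => simp
  | add x y _ _ hx hy => exact fun l => by rw [mul_add]; exact add_mem (hx l) (hy l)
  | smul p x _ hx =>
    intro l
    rw [show p • x = Polynomial.aeval (D.t i) p * x from rfl, Polynomial.aeval_eq_sum_range,
      Finset.sum_mul, Finset.mul_sum]
    refine Submodule.sum_mem _ fun n _ => ?_
    rw [Algebra.smul_mul_assoc, Algebra.mul_smul_comm, ← mul_assoc, ← pow_add]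
    exact V.smul_mem _ (hx _)

/-- The free basis of a chart over the polynomial ring gives a basis over `k` shifted by `t`. -/
theorem exists_basis_t (i : Fin 2) : ∃ (m : ℕ) (b : Module.Basis (ℕ × Fin m) k (D.B i)),
    ∀ n j, D.t i * b (n, j) = b (n + 1, j) := by
  let : Algebra (Polynomial k) (D.B i) := (Polynomial.aeval (R := k) (D.t i)).toRingHom.toAlgebra
  have : Module.Finite (Polynomial k) (D.B i) := D.aeval_t_finite i
  have : IsScalarTower k (Polynomial k) (D.B i) :=
    IsScalarTower.of_algebraMap_eq fun a => ((Polynomial.aeval (R := k) (D.t i)).commutes a).symm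
  have : FaithfulSMul (Polynomial k) (D.B i) :=
    (faithfulSMul_iff_algebraMap_injective (Polynomial k) (D.B i)).2 (D.aeval_t_injective i)
  let b := Module.finBasis (Polynomial k) (D.B i)
  refine ⟨_, (Polynomial.basisMonomials k).smulTower b, fun l j => ?_⟩
  simp only [Module.Basis.smulTower_apply, Polynomial.coe_basisMonomials, Algebra.smul_def,
    Polynomial.monomial_one_right_eq_X_pow, map_pow]
  rw [show algebraMap (Polynomial k) (D.B i) Polynomial.X = D.t i from Polynomial.aeval_X _]
  ring

variable (R : Type u) [CommRing R] [Algebra k R]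

/-- The filtration of a chart ring by the degree in `t`. -/
theorem exists_filtration (i : Fin 2) : ∃ G : ℕ → Submodule R (D.A R i), (∀ d, (G d).FG) ∧
    Monotone G ∧
    (∀ a, ∃ d, a ∈ G d) ∧ (∀ e d a, a ∈ G d → D.tR R i ^ e * a ∈ G (d + e)) ∧
      ∀ e d a, D.tR R i ^ e * a ∈ G (d + e) → a ∈ G d := by
  classical
  obtain ⟨m, b, hb⟩ := D.exists_basis_t i
  -- In a basis `t ^ l b q` the levels are spanned by the vectors with `l ≤ d`.
  let bA : Module.Basis (ℕ × Fin m) R (D.A R i) := Algebra.TensorProduct.basis R b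
  have hshift : ∀ (e l : ℕ) (q : Fin m), D.tR R i ^ e * bA (l, q) = bA (l + e, q) := by
    intro e
    induction e with
    | zero => simp
    | succ e ih =>
      intro l q
      rw [pow_succ', mul_assoc, ih]
      simp [bA, tR, hb, Nat.add_assoc]
  have hrepr : ∀ (e : ℕ) (a : D.A R i) (l : ℕ) (q : Fin m),
      bA.repr (D.tR R i ^ e * a) (l + e, q) = bA.repr a (l, q) := by
    intro e a l q
    induction bA.mem_span a using Submodule.span_induction with
    | mem x hx =>
      obtain ⟨⟨l', q'⟩, rfl⟩ := hx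
      simp [hshift, Finsupp.single_apply, Prod.ext_iff]
    | zero => simp
    | add x y _ _ hx hy => simp [mul_add, hx, hy]
    | smul r x _ hx => simp [hx]
  refine ⟨fun d => Submodule.span R (bA '' {p | p.1 ≤ d}), fun d => Submodule.fg_span ?_,
    fun d d' h => Submodule.span_mono (Set.image_mono fun p (hp : p.1 ≤ d) => hp.trans h),
    fun a => ?_,
    fun e d a ha => ?_, fun e d a ha => ?_⟩
  · exact (((Set.finite_Iic d).prod Set.finite_univ).subset fun p hp => ⟨hp, trivial⟩).image _
  · exact ⟨(bA.repr a).support.sup Prod.fst,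
      bA.mem_span_image.2 fun p hp => Finset.le_sup (f := Prod.fst) hp⟩
  · induction ha using Submodule.span_induction with
    | mem x hx =>
      obtain ⟨p, hp, rfl⟩ := hx
      rw [hshift]
      exact Submodule.subset_span ⟨_, Nat.add_le_add_right (show p.1 ≤ d from hp) e, rfl⟩
    | zero => simp
    | add x y _ _ hx hy => rw [mul_add]; exact add_mem hx hy
    | smul r x _ hx => rw [mul_smul_comm]; exact Submodule.smul_mem _ r hx
  · refine bA.mem_span_image.2 fun p hp => ?_
    have hp' : (p.1 + e, p.2) ∈ (bA.repr (D.tR R i ^ e * a)).support := by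
      simpa [hrepr] using hp
    have h' : p.1 + e ≤ d + e := bA.mem_span_image.1 ha hp'
    exact Nat.le_of_add_le_add_right h' 

/-- The coordinate in the overlap ring. -/
def uR (i : Fin 2) : D.A01 R := algebraMap (D.A R i) (D.A01 R) (D.tR R i)

theorem uR_eq (i : Fin 2) : D.uR R i = (1 : R) ⊗ₜ D.res i (D.t i) := rfl

theorem uR_zero_mul_uR_one : D.uR R 0 * D.uR R 1 = 1 := by
  simp [uR_eq, D.res_t_mul, Algebra.TensorProduct.one_def]

/-- The coordinates of the two charts are inverse on the overlap. -/
theorem uR_mul_of_ne {i j : Fin 2} (h : i ≠ j) : D.uR R i * D.uR R j = 1 := by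
  fin_cases i <;> fin_cases j <;>
    first | exact absurd rfl h | exact D.uR_zero_mul_uR_one R
          | exact (mul_comm _ _).trans (D.uR_zero_mul_uR_one R)

/-- Powers of the coordinates of the two charts are inverse on the overlap. -/
theorem uR_pow_mul {i j : Fin 2} (h : i ≠ j) (n : ℕ) : D.uR R i ^ n * D.uR R j ^ n = 1 := by
  rw [← mul_pow, D.uR_mul_of_ne R h, one_pow]

/-- Every overlap function times a power of the coordinate extends to the chart. -/
theorem exists_pow_uR_mul (i : Fin 2) (a : D.A01 R) :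
    ∃ (n : ℕ) (b : D.A R i), algebraMap (D.A R i) (D.A01 R) b = D.uR R i ^ n * a := by
  obtain ⟨n, b, h⟩ := CurveData.exists_pow_mul_eq (D := D) (R := R) i a
  exact ⟨n, b, h.symm⟩

end CurveData

variable {D : CurveData k} {R : Type u} [CommRing R] [Algebra k R]

namespace LB

open CurveData

variable (L : LB D R)

/-- Powers of the coordinate act alike through the overlap and through the chart. -/
theorem uR_pow_smul (i : Fin 2) (n : ℕ) (m : L.M) : D.uR R i ^ n • m = D.tR R i ^ n • m := by
  rw [← algebraMap_smul (D.A01 R) (D.tR R i ^ n) m, map_pow]; rfl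

/-- Multiplication by powers of the coordinate preserves the lattice. -/
theorem uR_pow_smul_mem {i : Fin 2} {n : ℕ} {m : L.M} (hm : m ∈ L.L i) :
    D.uR R i ^ n • m ∈ L.L i := by
  rw [L.uR_pow_smul]; exact (L.L i).smul_mem _ hm

/-- A power of the coordinate moves any overlap section into the lattice. -/
theorem exists_uR_pow_smul_mem (i : Fin 2) (m : L.M) : ∃ n, D.uR R i ^ n • m ∈ L.L i := by
  simp only [uR_pow_smul]
  exact L.exists_pow_smul_mem i m

theorem fg_L (i : Fin 2) : (L.L i).FG :=
  Module.Finite.iff_fg.1 inferInstance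

/-- A chart lattice is generated over the base by the translates of finitely many elements. -/
theorem exists_generators (i : Fin 2) : ∃ s : Finset L.M, (s : Set L.M) ⊆ L.L i ∧
    (L.L i).restrictScalars R ≤
      Submodule.span R (Set.range fun p : ℕ × s => D.uR R i ^ p.1 • (p.2 : L.M)) := by
  classical
  obtain ⟨g, hg⟩ := L.fg_L i
  obtain ⟨c, hc⟩ := D.exists_finset_span_pow_t i
  refine ⟨(c ×ˢ g).image fun q => ((1 : R) ⊗ₜ[k] q.1) • q.2, ?_, ?_⟩
  · intro x hx
    simp only [Finset.coe_image, Set.mem_image, Finset.mem_coe, Finset.mem_product] at hx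
    obtain ⟨⟨a, b⟩, ⟨-, hb⟩, rfl⟩ := hx
    exact (L.L i).smul_mem _ (hg ▸ Submodule.subset_span hb)
  intro x hx
  set V := Submodule.span R
      (Set.range fun p : ℕ × ((c ×ˢ g).image fun q => ((1 : R) ⊗ₜ[k] q.1) • q.2) =>
    D.uR R i ^ p.1 • (p.2 : L.M))
  have hx' : x ∈ Submodule.span (D.A R i) (g : Set L.M) := hg.symm ▸ hx
  suffices ∀ a : D.A R i, a • x ∈ V by simpa using this 1
  clear hx
  induction hx' using Submodule.span_induction with
  | mem y hy =>
    intro a
    induction a using TensorProduct.induction_on with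
    | zero => simp
    | add a a' h h' => rw [add_smul]; exact add_mem h h'
    | tmul r b =>
      rw [show r ⊗ₜ[k] b = r • ((1 : R) ⊗ₜ[k] b) by simp [TensorProduct.smul_tmul'], smul_assoc]
      refine V.smul_mem r ?_
      induction hc b using Submodule.span_induction with
      | mem z hz =>
        obtain ⟨⟨l, z, hz⟩, rfl⟩ := hz
        refine Submodule.subset_span ⟨(l, ⟨((1 : R) ⊗ₜ[k] z) • y, ?_⟩), ?_⟩
        · exact Finset.mem_image.2 ⟨(z, y), Finset.mem_product.2 ⟨hz, hy⟩, rfl⟩
        · simp [L.uR_pow_smul, tR, smul_smul]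
      | zero => simp
      | add z z' _ _ h h' => rw [tmul_add, add_smul]; exact add_mem h h'
      | smul e z _ h =>
        rw [show (1 : R) ⊗ₜ[k] (e • z) = algebraMap k R e • ((1 : R) ⊗ₜ[k] z) by
          rw [algebraMap_smul, tmul_smul], smul_assoc]
        exact V.smul_mem _ h
  | zero => simp
  | add y z _ _ hy hz => exact fun a => by rw [smul_add]; exact add_mem (hy a) (hz a)
  | smul b y _ hy => exact fun a => by rw [smul_smul]; exact hy _

/-- The overlap is spanned by the lattice of one chart and translates in the other direction. -/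
theorem le_sup_span_pow {i j : Fin 2} (h : i ≠ j) (s : Finset L.M) (hsub : (s : Set L.M) ⊆ L.L i)
    (hs : (L.L i).restrictScalars R ≤
      Submodule.span R (Set.range fun p : ℕ × s => D.uR R i ^ p.1 • (p.2 : L.M))) :
    ⊤ ≤ (L.L i).restrictScalars R ⊔
      Submodule.span R (Set.range fun p : ℕ × s => D.uR R j ^ p.1 • (p.2 : L.M)) := by
  intro m _
  set W := (L.L i).restrictScalars R ⊔
    Submodule.span R (Set.range fun p : ℕ × s => D.uR R j ^ p.1 • (p.2 : L.M))
  obtain ⟨N, hN⟩ := L.exists_uR_pow_smul_mem i m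
  have hm : m = D.uR R j ^ N • (D.uR R i ^ N • m) := by
    rw [smul_smul, D.uR_pow_mul R (Ne.symm h), one_smul]
  rw [hm]
  have hz := hs hN
  generalize D.uR R i ^ N • m = y at hz ⊢
  induction hz using Submodule.span_induction with
  | mem z hz =>
    obtain ⟨⟨l, g⟩, rfl⟩ := hz
    simp only [smul_smul]
    rcases le_total N l with hl | hl
    · obtain ⟨e, rfl⟩ := Nat.exists_eq_add_of_le hl
      rw [pow_add, ← mul_assoc, D.uR_pow_mul R (Ne.symm h), one_mul]
      exact Submodule.mem_sup_left (L.uR_pow_smul_mem (hsub g.2))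
    · obtain ⟨e, rfl⟩ := Nat.exists_eq_add_of_le hl
      rw [show D.uR R j ^ (l + e) * D.uR R i ^ l =
        D.uR R j ^ e * (D.uR R j ^ l * D.uR R i ^ l) by ring, D.uR_pow_mul R (Ne.symm h), mul_one]
      exact Submodule.mem_sup_right (Submodule.subset_span ⟨(e, g), rfl⟩)
  | zero => simp
  | add y z _ _ hy hz => rw [smul_add]; exact add_mem hy hz
  | smul r y _ hy => rw [smul_comm]; exact W.smul_mem r hy

/-- Finitely many elements of the overlap which lie in the second lattice after a translation span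
the first cohomology. -/
theorem exists_bound : ∃ (s : Finset L.M) (N : ℕ), (∀ n ≥ N, ∀ g ∈ s, D.uR R 1 ^ n • g ∈ L.L 1) ∧
    ⊤ ≤ (L.L 0).restrictScalars R ⊔
      Submodule.span R (Set.range fun p : ℕ × s => D.uR R 1 ^ p.1 • (p.2 : L.M)) := by
  classical
  obtain ⟨s, hsub, hs⟩ := L.exists_generators 0
  choose N hN using fun g => L.exists_uR_pow_smul_mem 1 g
  refine ⟨s, s.sup N, fun n hn g hg => ?_, L.le_sup_span_pow (by decide) s hsub hs⟩
  obtain ⟨e, rfl⟩ := Nat.exists_eq_add_of_le ((Finset.le_sup hg).trans hn)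
  rw [pow_add, mul_comm, mul_smul]
  exact L.uR_pow_smul_mem (hN g)

/-- First cohomology is a finite module over the base. -/
theorem finite_H1 : Module.Finite R L.H1 := by
  classical
  obtain ⟨s, N, hN, hs⟩ := L.exists_bound
  refine ⟨(((Finset.range N) ×ˢ s).image fun p => L.boundary.mkQ (D.uR R 1 ^ p.1 • p.2)), ?_⟩
  refine eq_top_iff.2 fun x _ => ?_
  obtain ⟨m, rfl⟩ := L.boundary.mkQ_surjective x
  set V := Submodule.span R
    ((((Finset.range N) ×ˢ s).image fun p => L.boundary.mkQ (D.uR R 1 ^ p.1 • p.2) : Finset L.H1) :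
      Set L.H1)
  have : (L.L 0).restrictScalars R ⊔
      Submodule.span R (Set.range fun p : ℕ × s => D.uR R 1 ^ p.1 • (p.2 : L.M)) ≤
          V.comap L.boundary.mkQ := by
    refine sup_le (fun y hy => ?_) (Submodule.span_le.2 ?_)
    · simp [(Submodule.Quotient.mk_eq_zero L.boundary).2 (Submodule.mem_sup_left hy)]
    · rintro _ ⟨⟨n, g, hg⟩, rfl⟩
      rcases lt_or_ge n N with hn | hn
      · exact Submodule.subset_span (Finset.mem_image.2
          ⟨(n, g), Finset.mem_product.2 ⟨Finset.mem_range.2 hn, hg⟩, rfl⟩)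
      · simp [(Submodule.Quotient.mk_eq_zero L.boundary).2 (Submodule.mem_sup_right (hN n hn g hg))]
  exact this (hs trivial)

/-- Finitely generated bound on the global sections inside each chart lattice. -/
theorem exists_fg_ge_H0 {i j : Fin 2} (h : i ≠ j) :
    ∃ F : Submodule R L.M, F.FG ∧ F ≤ (L.L i).restrictScalars R ∧
      (L.L i).restrictScalars R ⊓ (L.L j).restrictScalars R ≤ F := by
  classical
  -- Write lattice `i` as a quotient of a free module over the filtered chart ring, with a section.
  obtain ⟨G, hfg, hmono, hex, hmul, hdiv⟩ := D.exists_filtration R i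
  obtain ⟨n, p, hp⟩ := Module.Finite.exists_fin' (D.A R i) (L.L i)
  obtain ⟨ι, hι⟩ := Module.projective_lifting_property p LinearMap.id hp
  obtain ⟨s, -, hs⟩ := L.exists_generators j
  choose N hN using fun g => L.exists_uR_pow_smul_mem i g
  obtain ⟨E, hE⟩ : ∃ E, ∀ g : s, D.uR R i ^ E • (g : L.M) ∈ L.L i := by
    refine ⟨s.sup N, fun g => ?_⟩
    obtain ⟨e, he⟩ := Nat.exists_eq_add_of_le (Finset.le_sup (f := N) g.2)
    rw [he, pow_add, mul_comm, mul_smul]
    exact L.uR_pow_smul_mem (hN g)
  choose δ hδ using fun q : s × Fin n => hex (ι ⟨_, hE q.1⟩ q.2)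
  let d := Finset.univ.sup δ
  have hd : ∀ (g : s) (r : Fin n), ι ⟨_, hE g⟩ r ∈ G d := fun g r =>
    hmono (Finset.le_sup (Finset.mem_univ (g, r))) (hδ (g, r))
  refine ⟨(Submodule.pi Set.univ fun _ : Fin n => G d).map
    (((L.L i).subtype ∘ₗ p).restrictScalars R), (Submodule.fg_pi fun _ => hfg d).map _, ?_, ?_⟩
  · rintro _ ⟨y, -, rfl⟩
    exact (p y).2
  rintro x ⟨hxi, hxj⟩
  refine ⟨ι ⟨x, hxi⟩, fun r _ => ?_, ?_⟩
  swap
  · change ((p (ι ⟨x, hxi⟩)) : L.M) = x
    rw [← LinearMap.comp_apply, hι]; rfl
  -- Expanding `x` in generators of lattice `j` and multiplying by a power of `t` bounds its degree.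
  obtain ⟨c, hc⟩ := Finsupp.mem_span_range_iff_exists_finsupp.1 (hs hxj)
  let Λ := c.support.sup Prod.fst
  have key : D.tR R i ^ (Λ + E) • (⟨x, hxi⟩ : L.L i) =
      ∑ q ∈ c.support, c q • D.tR R i ^ (Λ - q.1) • (⟨_, hE q.2⟩ : L.L i) := by
    apply Subtype.ext
    rw [AddSubmonoidClass.coe_finsetSum, SetLike.val_smul, ← L.uR_pow_smul]
    change D.uR R i ^ (Λ + E) • x = _
    rw [← hc]
    rw [Finsupp.sum, Finset.smul_sum]
    refine Finset.sum_congr rfl fun q hq => ?_
    obtain ⟨e, he⟩ := Nat.exists_eq_add_of_le (Finset.le_sup (f := Prod.fst) hq : q.1 ≤ Λ)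
    rw [Submodule.coe_smul_of_tower, Submodule.coe_smul, ← L.uR_pow_smul, smul_comm, smul_smul,
      show Λ = q.1 + e from he,
      Nat.add_sub_cancel_left,
      show D.uR R i ^ (q.1 + e + E) * D.uR R j ^ q.1 =
        D.uR R i ^ e * D.uR R i ^ E * (D.uR R i ^ q.1 * D.uR R j ^ q.1) by ring,
      D.uR_pow_mul R h, mul_one, mul_smul]
  apply hdiv (Λ + E) d
  rw [← smul_eq_mul, ← Pi.smul_apply, ← map_smul, key, map_sum, Finset.sum_apply]
  refine Submodule.sum_mem _ fun q hq => ?_
  rw [LinearMap.map_smul_of_tower, map_smul, Pi.smul_apply, Pi.smul_apply, smul_eq_mul]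
  exact (G _).smul_mem _ (hmono (by omega) (hmul (Λ - q.1) d _ (hd q.2 r)))

/-- Over a field the global sections are finite dimensional. -/
theorem finite_H0_field {K : Type u} [Field K] [Algebra k K] (L : LB D K) :
    Module.Finite K L.H0 := by
  obtain ⟨F, hF, -, hle⟩ := L.exists_fg_ge_H0 (i := 0) (j := 1) (by decide)
  have : Module.Finite K F := Module.Finite.iff_fg.2 hF
  exact Module.Finite.of_injective (Submodule.inclusion hle) (Submodule.inclusion_injective hle)

end LB

end Fermat.Agent.Jac

end
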