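import Mathlib.Algebra.Module.StablyFree.Basic
import Mathlib.RingTheory.Flat.TorsionFree
import Mathlib.RingTheory.Henselian
import Mathlib.RingTheory.RegularLocalRing.Defs
import Mathlib.RingTheory.SimpleRing.Principal
import Mathlib.Tactic

/-!
# Linear algebra for the cohomology of two lattices
-/

set_option autoImplicit false

universe u

noncomputable section

open TensorProduct

namespace Fermat.Agent.Jac

/-- A projective module over a free algebra is projective over the base. -/
theorem projective_restrictScalars {R A M : Type u} [CommRing R] [CommRing A] [Algebra R A]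
    [Module.Free R A] [AddCommGroup M] [Module A M] [Module R M] [IsScalarTower R A M]
    [Module.Finite A M] [Module.Projective A M] : Module.Projective R M := by
  obtain ⟨n, p, hp⟩ := Module.Finite.exists_fin' A M
  obtain ⟨s, hs⟩ := Module.projective_lifting_property p LinearMap.id hp
  exact Module.Projective.of_split (s.restrictScalars R) (p.restrictScalars R)
    (LinearMap.ext fun m => LinearMap.congr_fun hs m)

/-- The base change of a finite module vanishes exactly off the preimage of its support. -/
theorem subsingleton_iff_of_isBaseChange {R R' N N' : Type u} [CommRing R] [CommRing R']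
    [Algebra R R'] [AddCommGroup N] [Module R N] [Module.Finite R N] [AddCommGroup N']
    [Module R' N'] [Module R N'] [IsScalarTower R R' N'] {f : N →ₗ[R] N'} (hf : IsBaseChange R' f) :
    Subsingleton N' ↔ Set.range (PrimeSpectrum.comap (algebraMap R R')) ⊆
      (Module.support R N)ᶜ := by
  rw [← hf.equiv.toEquiv.subsingleton_congr]
  constructor
  · rintro h _ ⟨q, rfl⟩ hp
    let p : PrimeSpectrum R := PrimeSpectrum.comap (algebraMap R R') q
    have hn : Nontrivial (p.asIdeal.ResidueField ⊗[R] N) :=
      (Module.mem_support_iff_nontrivial_residueField_tensorProduct p).1 hp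
    let : Algebra p.asIdeal.ResidueField q.asIdeal.ResidueField :=
      (Ideal.ResidueField.map p.asIdeal q.asIdeal (algebraMap R R') rfl).toAlgebra
    have : IsScalarTower R p.asIdeal.ResidueField q.asIdeal.ResidueField :=
      IsScalarTower.of_algebraMap_eq fun r => by
        rw [RingHom.algebraMap_toAlgebra, Ideal.ResidueField.map_algebraMap,
          ← IsScalarTower.algebraMap_apply]
    let e₁ := AlgebraTensorModule.cancelBaseChange R p.asIdeal.ResidueField q.asIdeal.ResidueField
      q.asIdeal.ResidueField N
    let e₂ :=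
      AlgebraTensorModule.cancelBaseChange R R' q.asIdeal.ResidueField q.asIdeal.ResidueField N
    have h₂ : Subsingleton (q.asIdeal.ResidueField ⊗[R] N) := e₂.symm.toEquiv.subsingleton
    have h₁ : Subsingleton (q.asIdeal.ResidueField ⊗[p.asIdeal.ResidueField]
        (p.asIdeal.ResidueField ⊗[R] N)) := e₁.toEquiv.subsingleton
    refine not_subsingleton (p.asIdeal.ResidueField ⊗[R] N)
      ⟨fun a b => ?_⟩
    apply Module.Flat.rTensor_preserves_injective_linearMap
      (Algebra.linearMap p.asIdeal.ResidueField q.asIdeal.ResidueField)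
      (RingHom.injective (algebraMap p.asIdeal.ResidueField q.asIdeal.ResidueField))
      |>.comp (TensorProduct.lid p.asIdeal.ResidueField
        (p.asIdeal.ResidueField ⊗[R] N)).symm.injective
    exact Subsingleton.elim _ _
  · intro h
    rw [← Module.support_eq_empty_iff (R := R'), Set.eq_empty_iff_forall_notMem]
    intro q hq
    refine h ⟨q, rfl⟩ (Module.mem_support_iff_of_finite.2 fun r hr => ?_)
    refine Module.mem_support_iff_of_finite.1 hq (Module.mem_annihilator.2 fun z => ?_)
    rw [algebraMap_smul]
    induction z using TensorProduct.induction_on with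
    | zero => simp
    | tmul a n => rw [← tmul_smul, Module.mem_annihilator.1 hr n, tmul_zero]
    | add a b ha hb => rw [smul_add, ha, hb, add_zero]

/-- Enlarging the second of two subspaces changes the Euler characteristic by the dimension of the
quotient. -/
theorem finrank_inf_sub_finrank_quotient_sup {K M : Type u} [Field K] [AddCommGroup M] [Module K M]
    (U V V' : Submodule K M) (hle : V ≤ V') [Module.Finite K ↥(U ⊓ V')]
    [Module.Finite K (M ⧸ (U ⊔ V))] :
    (Module.finrank K ↥(U ⊓ V') : ℤ) - Module.finrank K (M ⧸ (U ⊔ V')) =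
      Module.finrank K ↥(U ⊓ V) - Module.finrank K (M ⧸ (U ⊔ V)) +
        Module.finrank K (V' ⧸ V.comap V'.subtype) := by
  let f : V' ⧸ V.comap V'.subtype →ₗ[K] M ⧸ (U ⊔ V) :=
    Submodule.mapQ _ _ V'.subtype fun _ hx => Submodule.mem_sup_right hx
  let g : ↥(U ⊓ V') →ₗ[K] V' ⧸ V.comap V'.subtype :=
    (V.comap V'.subtype).mkQ ∘ₗ Submodule.inclusion inf_le_right
  let q : M ⧸ (U ⊔ V) →ₗ[K] M ⧸ (U ⊔ V') := Submodule.factor (sup_le_sup_left hle U)
  -- The sequence `U ⊓ V' → V' / V → M / (U + V) → M / (U + V') → 0` is exact.
  have hfg : LinearMap.ker f = LinearMap.range g := by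
    refine le_antisymm (fun x hx => ?_) ?_
    · obtain ⟨⟨v, hv⟩, rfl⟩ := (V.comap V'.subtype).mkQ_surjective x
      obtain ⟨a, ha, b, hb, hab⟩ := Submodule.mem_sup.1 ((Submodule.Quotient.mk_eq_zero _).1 hx)
      have hab' : a + b = v := hab
      have haV : a ∈ V' := by
        rw [show a = v - b by rw [← hab', add_sub_cancel_right]]
        exact sub_mem hv (hle hb)
      exact ⟨⟨a, ha, haV⟩, (Submodule.Quotient.eq _).2 (by
        change a - v ∈ V
        rw [← hab', sub_add_cancel_left]
        exact neg_mem hb)⟩
    · rintro _ ⟨x, rfl⟩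
      exact (Submodule.Quotient.mk_eq_zero _).2 (Submodule.mem_sup_left x.2.1)
  have hfq : LinearMap.range f = LinearMap.ker q := by
    ext x
    refine ⟨?_, ?_⟩
    · rintro ⟨y, rfl⟩
      obtain ⟨v, rfl⟩ := (V.comap V'.subtype).mkQ_surjective y
      exact (Submodule.Quotient.mk_eq_zero _).2 (Submodule.mem_sup_right v.2)
    · obtain ⟨y, rfl⟩ := (U ⊔ V).mkQ_surjective x
      intro hy
      replace hy : y ∈ U ⊔ V' := (Submodule.Quotient.mk_eq_zero _).1 hy
      obtain ⟨a, ha, b, hb, rfl⟩ := Submodule.mem_sup.1 hy
      refine ⟨(V.comap V'.subtype).mkQ ⟨b, hb⟩, (Submodule.Quotient.eq _).2 ?_⟩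
      change b - (a + b) ∈ _
      rw [sub_add_cancel_right]
      exact neg_mem (Submodule.mem_sup_left ha)
  have hW : Module.Finite K (V' ⧸ V.comap V'.subtype) := by
    have : Module.Finite K (LinearMap.ker f) := by rw [hfg]; infer_instance
    have : Module.Finite K (LinearMap.range f) := inferInstance
    have := Module.Finite.equiv f.quotKerEquivRange.symm
    exact Module.Finite.of_submodule_quotient (LinearMap.ker f)
  have e : Module.finrank K (LinearMap.ker g) = Module.finrank K ↥(U ⊓ V) := by
    refine LinearEquiv.finrank_eq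
      { toFun := fun x => ⟨(x.1 : M), x.1.2.1,
          ((Submodule.Quotient.mk_eq_zero (V.comap V'.subtype)
            (x := Submodule.inclusion inf_le_right x.1)).1 x.2 :)⟩
        invFun := fun x => ⟨⟨(x : M), x.2.1, hle x.2.2⟩, (Submodule.Quotient.mk_eq_zero _).2 x.2.2⟩
        map_add' := fun _ _ => rfl
        map_smul' := fun _ _ => rfl
        left_inv := fun _ => rfl
        right_inv := fun _ => rfl }
  -- Count dimensions.
  have h₁ := LinearMap.finrank_range_add_finrank_ker f
  have h₂ := LinearMap.finrank_range_add_finrank_ker g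
  have h₃ := LinearMap.finrank_range_add_finrank_ker q
  rw [hfg, hfq] at h₁
  rw [LinearMap.range_eq_top.2 (Submodule.factor_surjective (sup_le_sup_left hle U)),
    finrank_top] at h₃
  rw [e] at h₂
  omega

end Fermat.Agent.Jac

end
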