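import Fermat.Agent.Jac.Cohom.BaseChange
import Fermat.Agent.Jac.Cohom.Lattice
import Fermat.Agent.Jac.Cohom.Linear

/-!
# Sections of a bundle without first cohomology, and base change of both cohomology groups
-/

set_option autoImplicit false

universe u

noncomputable section

open TensorProduct

namespace Fermat.Agent.Jac

variable {k : Type u} [Field k] {D : CurveData k}
variable {R R' : Type u} [CommRing R] [Algebra k R] [CommRing R'] [Algebra k R']

namespace LB

variable (L : LB D R)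

theorem projective_M : Module.Projective R L.M :=
  projective_restrictScalars (A := D.A01 R)

/-- The lattices of a bundle are projective over the base. -/
theorem projective_L (i : Fin 2) : Module.Projective R (L.L i) :=
  projective_restrictScalars (A := D.A R i)

/-- The pairs of local sections. -/
abbrev C0 : Type u := ↥((L.L 0).restrictScalars R) × ↥((L.L 1).restrictScalars R)

/-- The sum map from pairs of local sections to the sections on the overlap. -/
def cechSum : L.C0 →ₗ[R] L.M :=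
  ((L.L 0).restrictScalars R).subtype.coprod ((L.L 1).restrictScalars R).subtype

theorem cechSum_apply (y : L.C0) : L.cechSum y = (y.1 : L.M) + y.2 := rfl

/-- A global section as a pair in the kernel of the sum map. -/
def toC0 : L.H0 →ₗ[R] L.C0 :=
  (Submodule.inclusion inf_le_left).prod (-Submodule.inclusion inf_le_right)

/-- Global sections inject into pairs of local sections. -/
theorem toC0_injective : Function.Injective L.toC0 := fun _ _ h =>
  Submodule.inclusion_injective inf_le_left (congrArg Prod.fst h)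

/-- A global section lies in the kernel of the sum map. -/
theorem cechSum_toC0 (x : L.H0) : L.cechSum (L.toC0 x) = 0 := add_neg_cancel (x : L.M)

theorem exists_cechSum_section [Subsingleton L.H1] :
    ∃ s : L.M →ₗ[R] L.C0, L.cechSum ∘ₗ s = LinearMap.id := by
  have := L.projective_M
  refine Module.projective_lifting_property L.cechSum LinearMap.id fun m => ?_
  have hm : m ∈ L.boundary := (Submodule.Quotient.mk_eq_zero L.boundary).1 (Subsingleton.elim _ _)
  obtain ⟨a, ha, b, hb, rfl⟩ := Submodule.mem_sup.1 hm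
  exact ⟨(⟨a, ha⟩, ⟨b, hb⟩), rfl⟩

theorem exists_retraction [Subsingleton L.H1] :
    ∃ (π : L.C0 →ₗ[R] L.H0) (s : L.M →ₗ[R] L.C0),
      π ∘ₗ L.toC0 = LinearMap.id ∧ ∀ y, L.toC0 (π y) + s (L.cechSum y) = y := by
  obtain ⟨s, hs⟩ := L.exists_cechSum_section
  have h0 :
      ∀ y : L.C0, ((y - s (L.cechSum y)).1 : L.M) = -((y - s (L.cechSum y)).2 : L.M) := fun y => by
    refine eq_neg_of_add_eq_zero_left ?_
    rw [← cechSum_apply, map_sub, ← LinearMap.comp_apply L.cechSum s, hs, LinearMap.id_apply,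
      sub_self]
  let P : L.C0 →ₗ[R] L.M := ((L.L 0).restrictScalars R).subtype ∘ₗ LinearMap.fst R _ _ ∘ₗ
    (LinearMap.id - s ∘ₗ L.cechSum)
  let π : L.C0 →ₗ[R] L.H0 := P.codRestrict L.H0 fun y =>
    ⟨(y - s (L.cechSum y)).1.2, (congrArg (· ∈ (L.L 1).restrictScalars R) (h0 y)).mpr
      (neg_mem (y - s (L.cechSum y)).2.2)⟩
  refine ⟨π, s, LinearMap.ext fun x => Subtype.ext ?_, fun y => ?_⟩
  · change (((L.toC0 x - s (L.cechSum (L.toC0 x))).1 : _) : L.M) = x
    rw [cechSum_toC0, map_zero, sub_zero]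
    rfl
  · refine (eq_sub_iff_add_eq).1 (Prod.ext (Subtype.ext rfl) (Subtype.ext ?_))
    change -((y - s (L.cechSum y)).1 : L.M) = ((y - s (L.cechSum y)).2 : L.M)
    rw [h0, neg_neg]

/-- Without first cohomology the global sections form a projective module. -/
theorem projective_H0' [Subsingleton L.H1] : Module.Projective R L.H0 := by
  obtain ⟨π, -, hπ, -⟩ := L.exists_retraction
  have h0 : Module.Projective R ↥((L.L 0).restrictScalars R) := L.projective_L 0
  have h1 : Module.Projective R ↥((L.L 1).restrictScalars R) := L.projective_L 1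
  exact Module.Projective.of_split L.toC0 π hπ

/-- Without first cohomology the global sections form a finite module. -/
theorem finite_H0' [Subsingleton L.H1] : Module.Finite R L.H0 := by
  obtain ⟨π, -, hπ, -⟩ := L.exists_retraction
  obtain ⟨F₀, hF₀, hle₀, hH₀⟩ := L.exists_fg_ge_H0 (i := 0) (j := 1) (by decide)
  obtain ⟨F₁, hF₁, hle₁, hH₁⟩ := L.exists_fg_ge_H0 (i := 1) (j := 0) (by decide)
  have h₀ : Module.Finite R F₀ := Module.Finite.iff_fg.2 hF₀
  have h₁ : Module.Finite R F₁ := Module.Finite.iff_fg.2 hF₁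
  refine Module.Finite.of_surjective
    (π ∘ₗ (Submodule.inclusion hle₀).prodMap (Submodule.inclusion hle₁)) fun x => ?_
  refine ⟨(⟨x, hH₀ x.2⟩, ⟨-(x : L.M), neg_mem (hH₁ ⟨x.2.2, x.2.1⟩)⟩), ?_⟩
  exact LinearMap.congr_fun hπ x

section BaseChange

variable [Algebra R R'] [IsScalarTower k R R'] {L} {L' : LB D R'}
  (g : Mor (IsScalarTower.toAlgHom k R R') L L') [Module R L'.M] [IsScalarTower R R' L'.M]

/-- The map on first cohomology. -/
def Mor.mapH1 : L.H1 →ₗ[R] L'.H1 :=
  L.boundary.liftQ ((L'.boundary.mkQ.restrictScalars R) ∘ₗ g.linearMap) <| by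
    refine sup_le (fun x hx => ?_) (fun x hx => ?_)
    · exact (Submodule.Quotient.mk_eq_zero L'.boundary).2 (Submodule.mem_sup_left (g.map_mem hx))
    · exact (Submodule.Quotient.mk_eq_zero L'.boundary).2 (Submodule.mem_sup_right (g.map_mem hx))

/-- First cohomology commutes with base change. -/
theorem Mor.isBaseChange_H1 : IsBaseChange R' g.mapH1 := by
  let u : L'.M →ₗ[R'] R' ⊗[R] L.H1 :=
    g.isBaseChange.lift (TensorProduct.mk R R' L.H1 1 ∘ₗ L.boundary.mkQ)
  have hu : ∀ m, u (g.f m) = 1 ⊗ₜ L.boundary.mkQ m := fun m => g.isBaseChange.lift_eq _ m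
  have hker : L'.boundary ≤ LinearMap.ker u := by
    refine sup_le ?_ ?_
    · rw [g.span_base 0, Submodule.span_le]
      rintro _ ⟨m, hm, rfl⟩
      simp [hu, (Submodule.Quotient.mk_eq_zero L.boundary).2 (Submodule.mem_sup_left hm)]
    · rw [g.span_base 1, Submodule.span_le]
      rintro _ ⟨m, hm, rfl⟩
      simp [hu, (Submodule.Quotient.mk_eq_zero L.boundary).2 (Submodule.mem_sup_right hm)]
  let v : R' ⊗[R] L.H1 →ₗ[R'] L'.H1 := g.mapH1.liftBaseChange R'
  let w : L'.H1 →ₗ[R'] R' ⊗[R] L.H1 := L'.boundary.liftQ u hker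
  have hvw : v ∘ₗ w = LinearMap.id := by
    refine Submodule.linearMap_qext _ ?_
    refine g.isBaseChange.algHom_ext _ _ fun m => ?_
    change v (u (g.f m)) = L'.boundary.mkQ (g.f m)
    rw [hu]
    simp only [v, LinearMap.liftBaseChange_tmul, one_smul]
    rfl
  have hwv : w ∘ₗ v = LinearMap.id := by
    ext x
    change w (v (1 ⊗ₜ L.boundary.mkQ x)) = 1 ⊗ₜ L.boundary.mkQ x
    simp only [v, LinearMap.liftBaseChange_tmul, one_smul]
    exact hu x
  exact IsBaseChange.of_equiv (LinearEquiv.ofLinearMap v w hvw hwv) fun x => by simp [v]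

/-- The map on global sections. -/
def Mor.mapH0 : L.H0 →ₗ[R] L'.H0 where
  toFun x := ⟨g.f x, g.map_mem x.2.1, g.map_mem x.2.2⟩
  map_add' x y := Subtype.ext (map_add g.f _ _)
  map_smul' r x := Subtype.ext (by simp [g.f_smul_base])

/-- The map on pairs of local sections. -/
def Mor.mapC0 : L.C0 →ₗ[R] L'.C0 :=
  (g.lattice 0).prodMap (g.lattice 1)

/-- Without first cohomology, global sections commute with base change. -/
theorem Mor.isBaseChange_H0 [Subsingleton L.H1] : IsBaseChange R' g.mapH0 := by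
  obtain ⟨π, s, hπ, hs⟩ := L.exists_retraction
  have hP : IsBaseChange R' g.mapC0 :=
    (g.isBaseChange_lattice 0).prodMap _ _ (g.isBaseChange_lattice 1)
  let π' : L'.C0 →ₗ[R'] R' ⊗[R] L.H0 := hP.lift (TensorProduct.mk R R' L.H0 1 ∘ₗ π)
  let s' : L'.M →ₗ[R'] L'.C0 := g.isBaseChange.lift (g.mapC0 ∘ₗ s)
  let v : R' ⊗[R] L.H0 →ₗ[R'] L'.H0 := g.mapH0.liftBaseChange R'
  have htoC0 : ∀ x : L.H0, L'.toC0 (g.mapH0 x) = g.mapC0 (L.toC0 x) := fun x =>
    Prod.ext (Subtype.ext rfl) (Subtype.ext (map_neg g.f (x : L.M)).symm)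
  have hcech : ∀ y : L.C0, L'.cechSum (g.mapC0 y) = g.f (L.cechSum y) :=
    fun y => (map_add g.f _ _).symm
  have hv : ∀ x : L.H0, v (1 ⊗ₜ x) = g.mapH0 x := fun x => by simp [v]
  have key : ∀ y : L'.C0, L'.toC0 (v (π' y)) + s' (L'.cechSum y) = y := by
    intro y
    refine LinearMap.congr_fun (f := L'.toC0 ∘ₗ v ∘ₗ π' + s' ∘ₗ L'.cechSum) (g := LinearMap.id)
      (hP.algHom_ext _ _ fun y => ?_) y
    change L'.toC0 (v (π' (g.mapC0 y))) + s' (L'.cechSum (g.mapC0 y)) = g.mapC0 y
    rw [hP.lift_eq, hcech, ← g.linearMap_apply, g.isBaseChange.lift_eq, LinearMap.comp_apply,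
      TensorProduct.mk_apply, hv, htoC0, LinearMap.comp_apply, ← map_add, hs]
  let w : L'.H0 →ₗ[R'] R' ⊗[R] L.H0 := π' ∘ₗ L'.toC0
  have hvw : v ∘ₗ w = LinearMap.id := LinearMap.ext fun x => L'.toC0_injective <| by
    simpa [w, cechSum_toC0] using key (L'.toC0 x)
  have hwv : w ∘ₗ v = LinearMap.id := by
    ext x
    change π' (L'.toC0 (v (1 ⊗ₜ x))) = 1 ⊗ₜ x
    rw [hv, htoC0, hP.lift_eq, LinearMap.comp_apply, ← LinearMap.comp_apply π L.toC0, hπ]
    rfl
  exact IsBaseChange.of_equiv (LinearEquiv.ofLinearMap v w hvw hwv) hv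

end BaseChange

end LB

end Fermat.Agent.Jac

end
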